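import Mathlib
import Fermat.Prelude.Def_ModularForm_HeckeOperator
import Fermat.Agent.S22.QAlg

/-!
# `q`-expansions of slashes by upper triangular matrices

For `F : ℍ → ℂ` that is `1`-periodic, holomorphic and bounded at `i∞`, and
`U = [[a, b], [0, d]]` with `a, d > 0`, the function `F ∣[k] U` (a constant times
`τ ↦ F ((a τ + b) / d)`) is `a * d`-periodic, holomorphic, bounded at `i∞`, and its
`q`-expansion at period `a * d` is explicit.
-/

set_option autoImplicit false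

noncomputable section

open UpperHalfPlane Function Complex ModularForm
open scoped Manifold MatrixGroups ModularForm Real

namespace Fermat.Agent.S28.H22

open Fermat.Agent.S22

local notation "𝕢" => Periodic.qParam

/-- The root of unity `e^{2πi b/d}`. -/
def zetaBD (b : ℤ) (d : ℕ) : ℂ := Complex.exp (2 * π * Complex.I * b / d)

theorem upperTriangular_ne_zero {a d : ℕ} (ha : 0 < a) (hd : 0 < d) : (a : ℝ) * (d : ℝ) ≠ 0 := by
  positivity

theorem det_upperTriangularGL (a b d : ℝ) (h : a * d ≠ 0) :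
    ((upperTriangularGL a b d h).det : ℝ) = a * d := by
  rw [Matrix.GeneralLinearGroup.val_det_apply, val_upperTriangularGL, Matrix.det_fin_two_of]
  ring

theorem det_upperTriangularGL_pos {a d : ℕ} (ha : 0 < a) (hd : 0 < d) (b : ℝ)
    (h : (a : ℝ) * (d : ℝ) ≠ 0) : 0 < ((upperTriangularGL a b d h).det : ℝ) := by
  rw [det_upperTriangularGL]
  positivity

theorem denom_upperTriangularGL (a b d : ℝ) (h : a * d ≠ 0) (τ : ℍ) :
    denom (upperTriangularGL a b d h) τ = d := by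
  simp [denom, val_upperTriangularGL]

theorem coe_upperTriangularGL_smul {a d : ℕ} (ha : 0 < a) (hd : 0 < d) (b : ℝ)
    (h : (a : ℝ) * (d : ℝ) ≠ 0) (τ : ℍ) :
    ((upperTriangularGL a b d h • τ : ℍ) : ℂ) = ((a : ℂ) * τ + b) / d := by
  rw [UpperHalfPlane.coe_smul_of_det_pos (det_upperTriangularGL_pos ha hd b h)]
  simp [num, denom, val_upperTriangularGL]

theorem σ_upperTriangularGL {a d : ℕ} (ha : 0 < a) (hd : 0 < d) (b : ℝ)
    (h : (a : ℝ) * (d : ℝ) ≠ 0) : σ (upperTriangularGL a b d h) = .refl ℝ ℂ := by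
  rw [σ, if_pos (det_upperTriangularGL_pos ha hd b h)]

theorem slash_upperTriangularGL_apply (k : ℤ) {a d : ℕ} (ha : 0 < a) (hd : 0 < d) (b : ℝ)
    (h : (a : ℝ) * (d : ℝ) ≠ 0) (F : ℍ → ℂ) (τ : ℍ) :
    (F ∣[k] upperTriangularGL a b d h) τ =
      ((a : ℂ) * d) ^ (k - 1) * (d : ℂ) ^ (-k) * F (upperTriangularGL a b d h • τ) := by
  rw [ModularForm.slash_apply, σ_upperTriangularGL ha hd, det_upperTriangularGL,
    denom_upperTriangularGL]
  have hpos : (0 : ℝ) ≤ (a : ℝ) * d := by positivity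
  simp only [ContinuousAlgEquiv.refl_apply, abs_of_nonneg hpos]
  push_cast
  ring

theorem qParam_upperTriangularGL_smul {a d : ℕ} (ha : 0 < a) (hd : 0 < d) (b : ℤ)
    (h : (a : ℝ) * (d : ℝ) ≠ 0) (τ : ℍ) :
    𝕢 1 ((upperTriangularGL a b d h • τ : ℍ) : ℂ) =
      zetaBD b d * 𝕢 ((a * d : ℕ) : ℝ) τ ^ (a ^ 2) := by
  have ha' : (a : ℂ) ≠ 0 := by exact_mod_cast ha.ne'
  have hd' : (d : ℂ) ≠ 0 := by exact_mod_cast hd.ne'
  have hcoe := coe_upperTriangularGL_smul ha hd (b : ℝ) h τ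
  rw [hcoe]
  unfold zetaBD Periodic.qParam
  rw [← Complex.exp_nat_mul, ← Complex.exp_add]
  congr 1
  push_cast
  field_simp
  ring

/-- The `j`-th coefficient of the period-`a * d` expansion of `F ∣[k] [[a, b], [0, d]]`. -/
def slashCoeff (F : ℍ → ℂ) (k : ℤ) (a : ℕ) (b : ℤ) (d : ℕ) (j : ℕ) : ℂ :=
  if a ^ 2 ∣ j then
    ((a : ℂ) * d) ^ (k - 1) * (d : ℂ) ^ (-k) * (qExpansion 1 F).coeff (j / a ^ 2) *
      zetaBD b d ^ (j / a ^ 2)
  else 0

theorem hasSum_slash_upperTriangularGL {F : ℍ → ℂ} (hF : IsNice 1 F) (k : ℤ) {a d : ℕ}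
    (ha : 0 < a) (hd : 0 < d) (b : ℤ) (h : (a : ℝ) * (d : ℝ) ≠ 0) (τ : ℍ) :
    HasSum (fun j : ℕ => slashCoeff F k a b d j • 𝕢 ((a * d : ℕ) : ℝ) τ ^ j)
      ((F ∣[k] upperTriangularGL a b d h) τ) := by
  have hper : Periodic (F ∘ ofComplex) ((1 : ℝ) : ℂ) := by simpa using hF.per
  have h1 := hasSum_qExpansion one_pos hper hF.holo hF.bdd (upperTriangularGL a b d h • τ)
  rw [qParam_upperTriangularGL_smul ha hd b h τ] at h1
  have h2 := h1.mul_left (((a : ℂ) * d) ^ (k - 1) * (d : ℂ) ^ (-k))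
  rw [← slash_upperTriangularGL_apply k ha hd (b : ℝ) h F τ] at h2
  have hinj : Function.Injective (fun m : ℕ => a ^ 2 * m) := fun m n hmn =>
    Nat.eq_of_mul_eq_mul_left (pow_pos ha 2) hmn
  rw [← hinj.hasSum_iff]
  · have h3 : ((fun j : ℕ => slashCoeff F k a b d j • 𝕢 ((a * d : ℕ) : ℝ) τ ^ j) ∘
        fun m : ℕ => a ^ 2 * m) = fun i : ℕ => ((a : ℂ) * d) ^ (k - 1) * (d : ℂ) ^ (-k) *
          ((qExpansion 1 F).coeff i •
            (zetaBD b d * 𝕢 ((a * d : ℕ) : ℝ) τ ^ a ^ 2) ^ i) := by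
      funext m
      simp only [Function.comp_apply, slashCoeff, if_pos (dvd_mul_right (a ^ 2) m),
        Nat.mul_div_cancel_left m (pow_pos ha 2), smul_eq_mul]
      rw [mul_pow, ← pow_mul]
      ring
    rw [h3]
    exact h2
  · intro j hj
    have : ¬ a ^ 2 ∣ j := fun ⟨m, hm⟩ => hj ⟨m, hm.symm⟩
    simp [slashCoeff, this]

theorem qParam_add_period (h : ℝ) (w : ℂ) : 𝕢 h (w + h) = 𝕢 h w := by
  unfold Periodic.qParam
  rcases eq_or_ne h 0 with rfl | hh
  · simp
  · have hh' : (h : ℂ) ≠ 0 := by exact_mod_cast hh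
    rw [show 2 * (π : ℂ) * Complex.I * (w + h) / h = 2 * π * Complex.I * w / h + 2 * π * Complex.I by
      field_simp]
    rw [Complex.exp_add, Complex.exp_two_pi_mul_I, mul_one]

/-- A function given by a convergent `q`-expansion at period `h` is `h`-periodic. -/
theorem periodic_of_hasSum {h : ℝ} {f : ℍ → ℂ} {c : ℕ → ℂ}
    (hf : ∀ τ : ℍ, HasSum (fun m : ℕ => c m • 𝕢 h τ ^ m) (f τ)) :
    Periodic (f ∘ ofComplex) h := by
  intro w
  by_cases hw : 0 < w.im
  · have hw' : 0 < (w + h).im := by simpa using hw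
    simp only [Function.comp_apply, ofComplex_apply_of_im_pos hw', ofComplex_apply_of_im_pos hw]
    refine (hf ⟨w + h, hw'⟩).unique ?_
    have hq : 𝕢 h ((⟨w + h, hw'⟩ : ℍ) : ℂ) = 𝕢 h ((⟨w, hw⟩ : ℍ) : ℂ) :=
      qParam_add_period h w
    simp only [hq]
    exact hf ⟨w, hw⟩
  · have hw1 : w.im ≤ 0 := not_lt.mp hw
    have hw2 : (w + h).im ≤ 0 := by simpa using hw1
    simp only [Function.comp_apply, ofComplex_apply_of_im_nonpos hw1,
      ofComplex_apply_of_im_nonpos hw2]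

theorem isNice_slash_upperTriangularGL {F : ℍ → ℂ} (hF : IsNice 1 F) (k : ℤ) {a d : ℕ}
    (ha : 0 < a) (hd : 0 < d) (b : ℤ) (h : (a : ℝ) * (d : ℝ) ≠ 0) :
    IsNice (a * d) (F ∣[k] upperTriangularGL a b d h) := by
  have hpos : (0 : ℝ) < ((a * d : ℕ) : ℝ) := by exact_mod_cast Nat.mul_pos ha hd
  have hs := hasSum_slash_upperTriangularGL hF k ha hd b h
  have hper : Periodic ((F ∣[k] upperTriangularGL a b d h) ∘ ofComplex)
      (((a * d : ℕ) : ℝ) : ℂ) := periodic_of_hasSum hs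
  have hholo : MDiff (F ∣[k] upperTriangularGL a b d h) := hF.holo.slash k _
  have hbdd : IsBoundedAtImInfty (F ∣[k] upperTriangularGL a b d h) :=
    isBoundedAtImInfty_of_hasSum_qExpansion hpos hs
  exact ⟨by exact_mod_cast hper, hholo, hbdd⟩


/-- Uniqueness of `q`-expansion coefficients, for plain functions. -/
theorem coeff_unique_fun {h : ℝ} {f : ℍ → ℂ} {c : ℕ → ℂ} (hh : 0 < h)
    (hfanalytic : AnalyticAt ℂ (cuspFunction h f) 0)
    (hf : ∀ τ : ℍ, HasSum (fun m : ℕ => c m • 𝕢 h τ ^ m) (f τ)) (m : ℕ) :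
    (qExpansion h f).coeff m = c m := by
  have h1 := (hasFPowerSeriesOnBall_cuspFunction hh hfanalytic hf).hasFPowerSeriesAt
  have h2 : HasFPowerSeriesAt (cuspFunction h f)
      (FormalMultilinearSeries.ofScalars ℂ fun m : ℕ => (qExpansion h f).coeff m) 0 := by
    simpa [qExpansion_coeff, div_eq_mul_inv, mul_comm] using hfanalytic.hasFPowerSeriesAt
  have h3 := congr_arg (FormalMultilinearSeries.coeff · m) (h1.eq_formalMultilinearSeries h2)
  simpa [FormalMultilinearSeries.coeff_ofScalars] using h3.symm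

theorem qExpansion_slash_upperTriangularGL_coeff {F : ℍ → ℂ} (hF : IsNice 1 F) (k : ℤ)
    {a d : ℕ} (ha : 0 < a) (hd : 0 < d) (b : ℤ) (h : (a : ℝ) * (d : ℝ) ≠ 0) (j : ℕ) :
    (qExpansion ((a * d : ℕ) : ℝ) (F ∣[k] upperTriangularGL a b d h)).coeff j =
      slashCoeff F k a b d j := by
  have hpos : (0 : ℝ) < ((a * d : ℕ) : ℝ) := by exact_mod_cast Nat.mul_pos ha hd
  have : NeZero (a * d) := ⟨(Nat.mul_pos ha hd).ne'⟩
  have hnice := isNice_slash_upperTriangularGL hF k ha hd b h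
  exact coeff_unique_fun hpos hnice.analyticAt
    (hasSum_slash_upperTriangularGL hF k ha hd b h) j

end Fermat.Agent.S28.H22
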