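import Mathlib
import Fermat.Prelude.Def_ModularForm_HeckeOperator

/-!
# Explicit cosets of `Γ₀(p)` in `SL(2,ℤ)` for `p` prime

The quotient `𝒬 = 𝒮ℒ ⧸ Γ₀(p)` (as used by `SlashInvariantForm.quotientFunc`) has the `p + 1`
elements `cosetOf 1` and `cosetOf (sigma b)`, `b < p`, where `sigma b = S * T ^ b = [[0,-1],[1,b]]`
and `cosetOf γ` is the coset whose translate of `g` is `g ∣[k] γ`.  For a level-one `F`,
`(F ∣[k] diag(p,1)) ∣[k] sigma b = F ∣[k] [[1,b],[0,p]]`.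
-/

set_option autoImplicit false

noncomputable section

open UpperHalfPlane ModularForm
open scoped MatrixGroups ModularForm
open Matrix.SpecialLinearGroup

namespace Fermat.Agent.S28.H22

local notation "Γ₀(" N ")" => CongruenceSubgroup.Gamma0 N

/-- `sigma b = S * T ^ b`. -/
def sigma (b : ℤ) : SL(2, ℤ) :=
  ⟨!![0, -1; 1, b], by simp [Matrix.det_fin_two_of]⟩

@[simp] theorem coe_sigma (b : ℤ) :
    ((sigma b : SL(2, ℤ)) : Matrix (Fin 2) (Fin 2) ℤ) = !![0, -1; 1, b] := rfl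

theorem mapGL_apply' (g : SL(2, ℤ)) (i j : Fin 2) :
    (mapGL ℝ g : GL (Fin 2) ℝ) i j = ((g i j : ℤ) : ℝ) := by
  simp

section

variable (p : ℕ)

local notation "𝒢" => (Subgroup.map (mapGL ℝ) Γ₀(p))
local notation "𝒬" => 𝒮ℒ ⧸ Subgroup.subgroupOf 𝒢 𝒮ℒ

/-- The coset of `γ⁻¹`; the corresponding translate of `g` is `g ∣[k] γ`. -/
def cosetOf (γ : SL(2, ℤ)) : 𝒬 :=
  ((⟨mapGL ℝ γ⁻¹, ⟨γ⁻¹, rfl⟩⟩ : 𝒮ℒ) : 𝒬)

theorem cosetOf_eq_iff (γ γ' : SL(2, ℤ)) :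
    cosetOf p γ = cosetOf p γ' ↔ γ * γ'⁻¹ ∈ Γ₀(p) := by
  unfold cosetOf
  rw [QuotientGroup.eq, Subgroup.mem_subgroupOf]
  have h : (((⟨mapGL ℝ γ⁻¹, ⟨γ⁻¹, rfl⟩⟩ : 𝒮ℒ)⁻¹ * (⟨mapGL ℝ γ'⁻¹, ⟨γ'⁻¹, rfl⟩⟩ : 𝒮ℒ) : 𝒮ℒ) :
      GL (Fin 2) ℝ) = mapGL ℝ (γ * γ'⁻¹) := by
    simp
  rw [h, Subgroup.mem_map_iff_mem mapGL_injective]

theorem cosetOf_surjective : Function.Surjective (cosetOf p) := by
  intro l
  induction l using Quotient.inductionOn with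
  | h r =>
    obtain ⟨r, δ, rfl⟩ := r
    refine ⟨δ⁻¹, ?_⟩
    unfold cosetOf
    simp only [inv_inv]

theorem quotientFunc_cosetOf {G : Type*} [FunLike G ℍ ℂ] {k : ℤ}
    [SlashInvariantFormClass G 𝒢 k] (g : G) (γ : SL(2, ℤ)) :
    SlashInvariantForm.quotientFunc g (cosetOf p γ) = (g : ℍ → ℂ) ∣[k] (mapGL ℝ γ) := by
  unfold cosetOf
  change SlashInvariantForm.quotientFunc g ⟦_⟧ = _
  rw [SlashInvariantForm.quotientFunc_mk]
  simp

theorem mem_Gamma0_iff_dvd (γ : SL(2, ℤ)) : γ ∈ Γ₀(p) ↔ (p : ℤ) ∣ γ 1 0 := by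
  rw [CongruenceSubgroup.Gamma0_mem, ZMod.intCast_zmod_eq_zero_iff_dvd]

theorem mul_sigma_inv_apply_one_zero (γ : SL(2, ℤ)) (b : ℤ) :
    (γ * (sigma b)⁻¹) 1 0 = b * γ 1 0 - γ 1 1 := by
  rw [Matrix.SpecialLinearGroup.coe_mul, Matrix.SpecialLinearGroup.coe_inv,
    Matrix.adjugate_fin_two]
  simp [Matrix.mul_apply, Fin.sum_univ_two]
  ring

variable [hp : Fact p.Prime]

/-- The explicit coset representatives. -/
def cosetFun : Option (Fin p) → 𝒬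
  | none => cosetOf p 1
  | some b => cosetOf p (sigma (b : ℕ))

theorem cosetFun_injective : Function.Injective (cosetFun p) := by
  have hp2 : (1 : ℤ) < p := by exact_mod_cast hp.out.one_lt
  intro x y hxy
  rcases x with _ | b <;> rcases y with _ | b'
  · rfl
  · exfalso
    simp only [cosetFun] at hxy
    rw [cosetOf_eq_iff, mem_Gamma0_iff_dvd, mul_sigma_inv_apply_one_zero] at hxy
    have h10 : (1 : SL(2, ℤ)) 1 0 = 0 := by simp
    have h11 : (1 : SL(2, ℤ)) 1 1 = 1 := by simp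
    rw [h10, h11] at hxy
    have : (p : ℤ) ∣ 1 := by
      have := hxy
      simpa using this
    exact absurd (Int.le_of_dvd one_pos this) (not_le.mpr hp2)
  · exfalso
    simp only [cosetFun] at hxy
    rw [cosetOf_eq_iff, mem_Gamma0_iff_dvd] at hxy
    have h1 : (sigma ((b : ℕ) : ℤ) * (1 : SL(2, ℤ))⁻¹) 1 0 = 1 := by
      rw [inv_one, mul_one]
      simp
    rw [h1] at hxy
    exact absurd (Int.le_of_dvd one_pos hxy) (not_le.mpr hp2)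
  · simp only [cosetFun] at hxy
    rw [cosetOf_eq_iff, mem_Gamma0_iff_dvd, mul_sigma_inv_apply_one_zero] at hxy
    have h10 : (sigma ((b : ℕ) : ℤ)) 1 0 = 1 := by simp
    have h11 : (sigma ((b : ℕ) : ℤ)) 1 1 = ((b : ℕ) : ℤ) := by simp
    rw [h10, h11, mul_one] at hxy
    have hmod : ((b' : ℕ) : ℤ) ≡ ((b : ℕ) : ℤ) [ZMOD (p : ℤ)] :=
      (Int.modEq_iff_dvd.mpr (by simpa using hxy)).symm
    have hnat : (b' : ℕ) ≡ (b : ℕ) [MOD p] := Int.natCast_modEq_iff.mp hmod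
    have := Nat.ModEq.eq_of_lt_of_lt hnat b'.2 b.2
    exact congrArg some (Fin.ext this.symm)

theorem cosetFun_surjective : Function.Surjective (cosetFun p) := by
  intro l
  obtain ⟨γ, rfl⟩ := cosetOf_surjective p l
  by_cases hγ : γ ∈ Γ₀(p)
  · refine ⟨none, ?_⟩
    simp only [cosetFun]
    rw [cosetOf_eq_iff]
    simpa using inv_mem hγ
  · rw [mem_Gamma0_iff_dvd] at hγ
    -- solve `b * c ≡ d (mod p)`
    have hc : ((γ 1 0 : ℤ) : ZMod p) ≠ 0 := by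
      rwa [Ne, ZMod.intCast_zmod_eq_zero_iff_dvd]
    set b : ZMod p := ((γ 1 1 : ℤ) : ZMod p) * ((γ 1 0 : ℤ) : ZMod p)⁻¹ with hb
    have hpos : NeZero p := ⟨hp.out.ne_zero⟩
    refine ⟨some ⟨b.val, ZMod.val_lt b⟩, ?_⟩
    simp only [cosetFun]
    rw [eq_comm, cosetOf_eq_iff, mem_Gamma0_iff_dvd, mul_sigma_inv_apply_one_zero,
      ← ZMod.intCast_zmod_eq_zero_iff_dvd]
    push_cast
    rw [ZMod.natCast_zmod_val, hb, mul_assoc, inv_mul_cancel₀ hc, mul_one, sub_self]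

/-- `Option (Fin p) ≃ 𝒮ℒ ⧸ Γ₀(p)`. -/
def cosetEquiv : Option (Fin p) ≃ 𝒬 :=
  Equiv.ofBijective (cosetFun p) ⟨cosetFun_injective p, cosetFun_surjective p⟩

theorem prod_quotient_eq [Fintype 𝒬] {M : Type*} [CommMonoid M] (Ψ : 𝒬 → M) :
    ∏ l : 𝒬, Ψ l = Ψ (cosetOf p 1) * ∏ b : Fin p, Ψ (cosetOf p (sigma (b : ℕ))) := by
  rw [← Equiv.prod_comp (cosetEquiv p) Ψ, Fintype.prod_option]
  rfl

theorem sum_quotient_eq [Fintype 𝒬] {M : Type*} [AddCommMonoid M] (Ψ : 𝒬 → M) :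
    ∑ l : 𝒬, Ψ l = Ψ (cosetOf p 1) + ∑ b : Fin p, Ψ (cosetOf p (sigma (b : ℕ))) := by
  rw [← Equiv.sum_comp (cosetEquiv p) Ψ, Fintype.sum_option]
  rfl

theorem card_quotient : Nat.card 𝒬 = p + 1 := by
  rw [← Nat.card_congr (cosetEquiv p)]
  simp

end

/-- `diag(p,1) * S * T^b = S * [[1,b],[0,p]]`. -/
theorem heckeDiagMatrix_mul_sigma {p : ℕ} (hp : p ≠ 0) (b : ℕ) :
    heckeDiagMatrix p * mapGL ℝ (sigma b) = mapGL ℝ ModularGroup.S * heckeMatrix p b := by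
  ext i j
  fin_cases i <;> fin_cases j <;>
    simp [ModularGroup.coe_S, hp, Matrix.mul_apply, Fin.sum_univ_two]

/-- For `F` invariant under `S`, `(F ∣[k] diag(p,1)) ∣[k] sigma b = F ∣[k] [[1,b],[0,p]]`. -/
theorem slash_heckeDiagMatrix_sigma {p : ℕ} (hp : p ≠ 0) (k : ℤ) (F : ℍ → ℂ)
    (hF : F ∣[k] (mapGL ℝ ModularGroup.S) = F) (b : ℕ) :
    (F ∣[k] heckeDiagMatrix p) ∣[k] (mapGL ℝ (sigma b)) = F ∣[k] heckeMatrix p b := by
  rw [← SlashAction.slash_mul, heckeDiagMatrix_mul_sigma hp, SlashAction.slash_mul, hF]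

end Fermat.Agent.S28.H22
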