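import Mathlib
import Fermat.Prelude.Def_ModularForm_HeckeOperator
import Fermat.Agent.S22.QAlg
import Fermat.Agent.S28.H22.SlashQExp
import Fermat.Agent.S28.H22.Cosets

/-!
# `q`-expansions of the `SL(2,ℤ)`-translates of `F ∣[k] diag(p,1)`

Specialisations of `SlashQExp` to the Hecke matrices `[[1,b],[0,p]]` and `diag(p,1)`.
-/

set_option autoImplicit false

noncomputable section

open UpperHalfPlane Function Complex ModularForm
open scoped Manifold MatrixGroups ModularForm Real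

namespace Fermat.Agent.S28.H22

open Fermat.Agent.S22

theorem heckeMatrix_eq_upperTriangularGL {p : ℕ} (hp : p ≠ 0) (b : ℕ) :
    heckeMatrix p b = upperTriangularGL ((1 : ℕ) : ℝ) ((b : ℤ) : ℝ) (p : ℝ)
      (upperTriangular_ne_zero one_pos (Nat.pos_of_ne_zero hp)) := by
  ext i j
  fin_cases i <;> fin_cases j <;> simp [heckeMatrix, hp, upperTriangularGL,
    Matrix.GeneralLinearGroup.mkOfDetNeZero]

theorem heckeDiagMatrix_eq_upperTriangularGL {p : ℕ} (hp : p ≠ 0) :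
    heckeDiagMatrix p = upperTriangularGL (p : ℝ) ((0 : ℤ) : ℝ) ((1 : ℕ) : ℝ)
      (upperTriangular_ne_zero (Nat.pos_of_ne_zero hp) one_pos) := by
  ext i j
  fin_cases i <;> fin_cases j <;> simp [heckeDiagMatrix, hp, upperTriangularGL,
    Matrix.GeneralLinearGroup.mkOfDetNeZero]

/-- `F ∣[k] [[1,b],[0,p]]` is `p`-periodic, holomorphic and bounded at `i∞`. -/
theorem isNice_slash_heckeMatrix {F : ℍ → ℂ} (hF : IsNice 1 F) (k : ℤ) {p : ℕ} (hp : p ≠ 0)
    (b : ℕ) : IsNice p (F ∣[k] heckeMatrix p b) := by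
  rw [heckeMatrix_eq_upperTriangularGL hp]
  have := isNice_slash_upperTriangularGL hF k one_pos (Nat.pos_of_ne_zero hp) (b : ℤ)
    (upperTriangular_ne_zero one_pos (Nat.pos_of_ne_zero hp))
  rwa [one_mul] at this

/-- The `q^{1/p}`-expansion of `F ∣[k] [[1,b],[0,p]] = p⁻¹ F((τ+b)/p)`: the `j`-th coefficient is
`p⁻¹ a_j ζ_p^{b j}`. -/
theorem qExpansion_slash_heckeMatrix_coeff {F : ℍ → ℂ} (hF : IsNice 1 F) (k : ℤ) {p : ℕ}
    (hp : p ≠ 0) (b : ℕ) (j : ℕ) :
    (qExpansion (p : ℝ) (F ∣[k] heckeMatrix p b)).coeff j =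
      (p : ℂ)⁻¹ * (qExpansion 1 F).coeff j * zetaBD b p ^ j := by
  have hp' : (p : ℂ) ≠ 0 := by exact_mod_cast hp
  rw [heckeMatrix_eq_upperTriangularGL hp]
  have h := qExpansion_slash_upperTriangularGL_coeff hF k one_pos (Nat.pos_of_ne_zero hp)
    (b : ℤ) (upperTriangular_ne_zero one_pos (Nat.pos_of_ne_zero hp)) j
  rw [one_mul] at h
  rw [h]
  simp only [slashCoeff, one_pow, one_dvd, if_true, Nat.div_one, Nat.cast_one, one_mul]
  congr 2
  rw [← zpow_add₀ hp', show k - 1 + -k = -1 by ring, zpow_neg_one]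

/-- `F ∣[k] diag(p,1)` is `p`-periodic, holomorphic and bounded at `i∞`. -/
theorem isNice_slash_heckeDiagMatrix {F : ℍ → ℂ} (hF : IsNice 1 F) (k : ℤ) {p : ℕ}
    (hp : p ≠ 0) : IsNice p (F ∣[k] heckeDiagMatrix p) := by
  rw [heckeDiagMatrix_eq_upperTriangularGL hp]
  have := isNice_slash_upperTriangularGL hF k (Nat.pos_of_ne_zero hp) one_pos (0 : ℤ)
    (upperTriangular_ne_zero (Nat.pos_of_ne_zero hp) one_pos)
  rwa [mul_one] at this

/-- The period-`p` expansion of `F ∣[k] diag(p,1) = p^{k-1} F(pτ)`: only exponents divisible by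
`p^2` occur. -/
theorem qExpansion_slash_heckeDiagMatrix_coeff {F : ℍ → ℂ} (hF : IsNice 1 F) (k : ℤ) {p : ℕ}
    (hp : p ≠ 0) (j : ℕ) :
    (qExpansion (p : ℝ) (F ∣[k] heckeDiagMatrix p)).coeff j =
      if p ^ 2 ∣ j then (p : ℂ) ^ (k - 1) * (qExpansion 1 F).coeff (j / p ^ 2) else 0 := by
  rw [heckeDiagMatrix_eq_upperTriangularGL hp]
  have h := qExpansion_slash_upperTriangularGL_coeff hF k (Nat.pos_of_ne_zero hp) one_pos
    (0 : ℤ) (upperTriangular_ne_zero (Nat.pos_of_ne_zero hp) one_pos) j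
  rw [mul_one] at h
  rw [h]
  simp only [slashCoeff]
  split_ifs
  · simp [zetaBD]
  · rfl

end Fermat.Agent.S28.H22
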