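import Mathlib
import Fermat.Agent.S24.H76.JBridge
import Fermat.Agent.S28.Defs
import Fermat.Agent.S28.Formal

/-!
# Formal side of the bridge analytic → Laurent series (S28, M1c)

* `ofPS_eq_smul_vq`, `ofPS_eq_smul_qScale`: a power series whose coefficients are those of
  `f(q^m)` resp. `f(c q)` (up to a scalar) maps to `vq m` resp. `qScale c` of `f` in
  `LaurentSeries ℂ`.
* `ofPS_E4_cube`: `E₄³ = j · Δ` for the `q`-expansions, in `LaurentSeries ℂ`, with `j` the
  Prelude's formal `jqModC ℂ`.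
-/

set_option autoImplicit false

noncomputable section

open UpperHalfPlane ModularForm EisensteinSeries
open scoped MatrixGroups ModularForm

namespace Fermat.Agent.S28.H22

open Fermat.Agent.S28 ModularCurve

/-- The embedding of power series into Laurent series. -/
abbrev ofPS : PowerSeries ℂ →+* LaurentSeries ℂ := HahnSeries.ofPowerSeries ℤ ℂ

theorem ofPS_coeff_nat (f : PowerSeries ℂ) (n : ℕ) : (ofPS f).coeff (n : ℤ) = f.coeff n := by
  rw [ofPS, HahnSeries.ofPowerSeries_apply_coeff]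

theorem ofPS_coeff_neg (f : PowerSeries ℂ) {n : ℤ} (hn : n < 0) : (ofPS f).coeff n = 0 :=
  ofPowerSeries_coeff_of_neg _ hn

theorem ofPS_injective : Function.Injective ofPS := HahnSeries.ofPowerSeries_injective

/-- If `g` has the coefficients of `a · f(q^m)`, then `g = a • f(q^m)` as Laurent series. -/
theorem ofPS_eq_smul_vq {f g : PowerSeries ℂ} {m : ℕ} (hm : m ≠ 0) (a : ℂ)
    (h : ∀ j : ℕ, g.coeff j = if m ∣ j then a * f.coeff (j / m) else 0) :
    ofPS g = a • vq m (ofPS f) := by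
  ext n
  rw [HahnSeries.coeff_smul, smul_eq_mul]
  by_cases hd : (m : ℤ) ∣ n
  · obtain ⟨t, rfl⟩ := hd
    rw [vq_coeff_mul m hm]
    rcases lt_or_ge t 0 with ht | ht
    · have hneg : (m : ℤ) * t < 0 :=
        mul_neg_of_pos_of_neg (by exact_mod_cast Nat.pos_of_ne_zero hm) ht
      rw [ofPS_coeff_neg _ hneg, ofPS_coeff_neg _ ht, mul_zero]
    · lift t to ℕ using ht
      rw [show (m : ℤ) * (t : ℤ) = ((m * t : ℕ) : ℤ) by push_cast; ring, ofPS_coeff_nat,
        ofPS_coeff_nat, h, if_pos (dvd_mul_right m t), Nat.mul_div_cancel_left _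
          (Nat.pos_of_ne_zero hm)]
  · rw [vq_coeff_of_not_dvd m hm _ _ hd, mul_zero]
    rcases lt_or_ge n 0 with hn | hn
    · exact ofPS_coeff_neg _ hn
    · lift n to ℕ using hn
      rw [ofPS_coeff_nat, h, if_neg]
      intro hmn
      exact hd (by exact_mod_cast hmn)

/-- If `g` has the coefficients of `a · f(c q)`, then `g = a • f(c q)` as Laurent series. -/
theorem ofPS_eq_smul_qScale {f g : PowerSeries ℂ} (c : ℂˣ) (a : ℂ)
    (h : ∀ j : ℕ, g.coeff j = a * f.coeff j * (c : ℂ) ^ j) :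
    ofPS g = a • qScale c (ofPS f) := by
  ext n
  rw [HahnSeries.coeff_smul, smul_eq_mul, qScale_coeff]
  rcases lt_or_ge n 0 with hn | hn
  · rw [ofPS_coeff_neg _ hn, ofPS_coeff_neg _ hn, mul_zero, mul_zero]
  · lift n to ℕ using hn
    rw [ofPS_coeff_nat, ofPS_coeff_nat, h, zpow_natCast, Units.val_pow_eq_pow_val]
    ring

/-- `E₄³ = j · Δ` on the level of `q`-expansions, in `LaurentSeries ℂ`. -/
theorem ofPS_E4_cube :
    ofPS (qExpansion 1 E₄ ^ 3) = jqModC ℂ * ofPS (qExpansion 1 ModularForm.discriminant) := by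
  rw [Fermat.Agent.S24.H76.qExpansion_E4, Fermat.Agent.S24.H76.qExpansion_discriminant]
  have hX : ofPS (PowerSeries.X : PowerSeries ℂ) = HahnSeries.single (1 : ℤ) (1 : ℂ) :=
    HahnSeries.ofPowerSeries_X
  have hu : (jNum.map (Int.castRingHom ℂ)) * (etaProd ^ 24).map (Int.castRingHom ℂ) =
      (eisenstein4.map (Int.castRingHom ℂ)) ^ 3 := by
    rw [← map_mul, ← map_pow]
    congr 1
    have h1 : dedekindEtaUnitInv * etaProd ^ 24 = 1 := by
      have := dedekindEtaUnit_mul_inv
      rw [dedekindEtaUnit] at this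
      rw [mul_comm]; exact this
    rw [jNum, mul_assoc, h1, mul_one]
  rw [jqModC, map_mul, hX, ← hu, map_mul]
  have h1 : (HahnSeries.single (-1 : ℤ) (1 : ℂ)) * HahnSeries.single (1 : ℤ) (1 : ℂ) = 1 := by
    rw [HahnSeries.single_mul_single]
    simp
  calc ofPS (jNum.map (Int.castRingHom ℂ)) * ofPS ((etaProd ^ 24).map (Int.castRingHom ℂ))
      = (HahnSeries.single (-1 : ℤ) (1 : ℂ) * HahnSeries.single (1 : ℤ) (1 : ℂ)) *
        (ofPS (jNum.map (Int.castRingHom ℂ)) *
          ofPS ((etaProd ^ 24).map (Int.castRingHom ℂ))) := by rw [h1, one_mul]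
    _ = _ := by ring

end Fermat.Agent.S28.H22
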