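import Mathlib
import Fermat.Prelude.Thm_ModularForm_heckeT_slash_eq_self_of_mem_Gamma0
import Fermat.Prelude.Thm_UpperHalfPlane_qExpansion_coeff_nat_mul
import Fermat.Agent.S28.H23.ModEqAnalytic
import Fermat.Agent.S28.H22.Translates
import Fermat.Agent.S28.H22.BridgeA

/-!
# Bridge: the analytic modular equation ⟹ the factorisation in `ℂ((q))[X]` (S28, M1c)

From helper23's pointwise identity `Φ(X, J τ) = ∏_x (X - J (α_x τ))` (over the `p + 1` Hecke
representatives) we deduce, by taking **period-`p`** `q`-expansions (`q = e^{2πiτ/p}`), the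
identity `Φ(X, j(q^p)) = (X - j(q^{p²})) ∏_{b<p} (X - j(ζ^b q))` in `ℂ((q))[X]`.
-/

set_option autoImplicit false
set_option linter.unusedSectionVars false

noncomputable section

open UpperHalfPlane Function Complex ModularForm EisensteinSeries Polynomial
open scoped Manifold MatrixGroups ModularForm Real
open P2MW.S_ModularForm_heckeT_slash_eq_self_of_mem_Gamma0.ModularForm.HeckeSlashInvariance

namespace Fermat.Agent.S28.H22

open Fermat.Agent.S22 Fermat.Agent.S28 Fermat.Agent.S28.H23 ModularCurve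

local notation "Δ" => ModularForm.discriminant

/-! ### Niceness of the level-one functions -/

theorem isNice_one_of_form {k : ℤ} (r : ModularForm 𝒮ℒ k) : IsNice 1 (r : ℍ → ℂ) := by
  have : Fact (IsCusp OnePoint.infty 𝒮ℒ) :=
    ⟨Subgroup.isCusp_of_mem_strictPeriods (𝒢 := 𝒮ℒ) one_pos one_mem_strictPeriods_SL⟩
  exact IsNice.of_one 1 (SlashInvariantFormClass.periodic_comp_ofComplex r
    one_mem_strictPeriods_SL) (ModularFormClass.holo r) (ModularFormClass.bdd_at_infty r)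

theorem isNice_one_of_lvlOne {k : ℤ} {f : ℍ → ℂ} (hf : LvlOne k f) : IsNice 1 f := by
  obtain ⟨r, rfl⟩ := hf.exists_form
  exact isNice_one_of_form r

theorem isNice_discriminant : IsNice 1 (Δ : ℍ → ℂ) := isNice_one_of_lvlOne lvlOne_discriminant

theorem isNice_E4 : IsNice 1 (E₄ : ℍ → ℂ) := isNice_one_of_form E₄

theorem isNice_E4_cube : IsNice 1 ((E₄ : ℍ → ℂ) ^ 3) := by
  have h : ((E₄ : ℍ → ℂ) ^ 3) = (E₄ : ℍ → ℂ) * (E₄ : ℍ → ℂ) * (E₄ : ℍ → ℂ) := by ring
  rw [h]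
  exact (isNice_E4.mul isNice_E4).mul isNice_E4

theorem qExpansion_E4_cube :
    qExpansion 1 ((E₄ : ℍ → ℂ) ^ 3) = qExpansion 1 (E₄ : ℍ → ℂ) ^ 3 := by
  have h : ((E₄ : ℍ → ℂ) ^ 3) = (E₄ : ℍ → ℂ) * (E₄ : ℍ → ℂ) * (E₄ : ℍ → ℂ) := by ring
  have h1 : AnalyticAt ℂ (cuspFunction ((1 : ℕ) : ℝ) (E₄ : ℍ → ℂ)) 0 := isNice_E4.analyticAt
  have h2 : AnalyticAt ℂ (cuspFunction ((1 : ℕ) : ℝ) ((E₄ : ℍ → ℂ) * (E₄ : ℍ → ℂ))) 0 :=
    (isNice_E4.mul isNice_E4).analyticAt
  rw [Nat.cast_one] at h1 h2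
  rw [h, qExpansion_mul h2 h1, qExpansion_mul h1 h1]
  ring

theorem isNice_of_isNice_one {F : ℍ → ℂ} (hF : IsNice 1 F) (N : ℕ) : IsNice N F := by
  refine IsNice.of_one N ?_ hF.holo hF.bdd
  have := hF.per
  simpa using this

/-- Period-`N` coefficients of a `1`-periodic nice function. -/
theorem coeff_qExpansion_of_isNice_one (N : ℕ) [NeZero N] {F : ℍ → ℂ} (hF : IsNice 1 F) (n : ℕ) :
    (qExpansion N F).coeff n = if N ∣ n then (1 : ℂ) * (qExpansion 1 F).coeff (n / N) else 0 := by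
  have hper : Periodic (F ∘ ofComplex) ((1 : ℝ) : ℂ) := by simpa using hF.per
  have h := UpperHalfPlane.qExpansion_coeff_nat_mul one_pos hper hF.holo hF.bdd
    (NeZero.pos N) n
  rw [mul_one] at h
  rw [h, one_mul]

/-! ### The root of unity -/

/-- `ζ = e^{2πi/p}` as a unit of `ℂ`. -/
def zetaU (p : ℕ) : ℂˣ := Units.mk0 (zetaBD 1 p) (Complex.exp_ne_zero _)

theorem zetaU_val (p : ℕ) : (zetaU p : ℂ) = Complex.exp (2 * π * Complex.I / p) := by
  simp [zetaU, zetaBD]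

theorem zetaBD_eq_zetaU_pow (p : ℕ) (b : ℕ) : zetaBD (b : ℤ) p = (zetaU p : ℂ) ^ b := by
  rw [zetaU_val, ← Complex.exp_nat_mul, zetaBD]
  congr 1
  push_cast
  ring

theorem isPrimitiveRoot_zetaU (p : ℕ) (hp : p ≠ 0) : IsPrimitiveRoot (zetaU p) p := by
  rw [← IsPrimitiveRoot.coe_units_iff, zetaU_val]
  exact Complex.isPrimitiveRoot_exp p hp

/-! ### The translates -/

variable (p : ℕ) [Fact p.Prime]

theorem isNice_tr {F : ℍ → ℂ} (hF : IsNice 1 F) (k : ℤ) (x : OnePoint (ZMod p)) :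
    IsNice p (tr p k F x) := by
  have hp : p ≠ 0 := (Fact.out : p.Prime).ne_zero
  induction x using OnePoint.rec with
  | infty => exact isNice_slash_heckeDiagMatrix hF k hp
  | coe j => exact isNice_slash_heckeMatrix hF k hp j.val

/-- The formal counterpart of the translate by `α_x`. -/
def trL (k : ℤ) (x : OnePoint (ZMod p)) (y : LaurentSeries ℂ) : LaurentSeries ℂ :=
  Option.elim x (HahnSeries.C ((p : ℂ) ^ (k - 1)) * vq (p * p) y)
    (fun j => HahnSeries.C ((p : ℂ)⁻¹) * qScale (zetaU p ^ j.val) y)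

/-- The formal `j`-invariants `j(q^{p²})`, `j(ζ^b q)`. -/
def jx (x : OnePoint (ZMod p)) : LaurentSeries ℂ :=
  Option.elim x (jS ℂ 1 (p * p)) (fun j => jS ℂ (zetaU p ^ j.val) 1)

theorem ofPS_qExpansion_tr {F : ℍ → ℂ} (hF : IsNice 1 F) (k : ℤ) (x : OnePoint (ZMod p)) :
    ofPS (qExpansion p (tr p k F x)) = trL p k x (ofPS (qExpansion 1 F)) := by
  have hp : p ≠ 0 := (Fact.out : p.Prime).ne_zero
  induction x using OnePoint.rec with
  | infty =>
    show ofPS (qExpansion p (F ∣[k] heckeDiagMatrix p)) =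
      HahnSeries.C ((p : ℂ) ^ (k - 1)) * vq (p * p) (ofPS (qExpansion 1 F))
    rw [HahnSeries.C_mul_eq_smul]
    refine ofPS_eq_smul_vq (mul_ne_zero hp hp) _ fun j => ?_
    rw [qExpansion_slash_heckeDiagMatrix_coeff hF k hp j, pow_two]
  | coe j =>
    show ofPS (qExpansion p (F ∣[k] heckeMatrix p j.val)) =
      HahnSeries.C ((p : ℂ)⁻¹) * qScale (zetaU p ^ j.val) (ofPS (qExpansion 1 F))
    rw [HahnSeries.C_mul_eq_smul]
    refine ofPS_eq_smul_qScale _ _ fun i => ?_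
    rw [qExpansion_slash_heckeMatrix_coeff hF k hp j.val i, zetaBD_eq_zetaU_pow,
      Units.val_pow_eq_pow_val]

theorem trL_jq_mul (k : ℤ) (x : OnePoint (ZMod p)) (z : LaurentSeries ℂ) :
    trL p k x (jqModC ℂ * z) = jx p x * trL p k x z := by
  induction x using OnePoint.rec with
  | infty =>
    show HahnSeries.C ((p : ℂ) ^ (k - 1)) * vq (p * p) (jqModC ℂ * z) =
      jS ℂ 1 (p * p) * (HahnSeries.C ((p : ℂ) ^ (k - 1)) * vq (p * p) z)
    rw [map_mul, jS, qSub_apply, qScale_one]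
    ring
  | coe j =>
    show HahnSeries.C ((p : ℂ)⁻¹) * qScale (zetaU p ^ j.val) (jqModC ℂ * z) =
      jS ℂ (zetaU p ^ j.val) 1 * (HahnSeries.C ((p : ℂ)⁻¹) * qScale (zetaU p ^ j.val) z)
    rw [map_mul, jS, qSub_apply, vq_one]
    ring

theorem hahnC_ne_zero {a : ℂ} (ha : a ≠ 0) : (HahnSeries.C a : LaurentSeries ℂ) ≠ 0 := by
  intro h
  exact ha (HahnSeries.C_injective (by rw [h, map_zero]))

theorem trL_ne_zero (k : ℤ) (x : OnePoint (ZMod p)) {y : LaurentSeries ℂ} (hy : y ≠ 0) :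
    trL p k x y ≠ 0 := by
  have hp : p ≠ 0 := (Fact.out : p.Prime).ne_zero
  have hpc : (p : ℂ) ≠ 0 := by exact_mod_cast hp
  induction x using OnePoint.rec with
  | infty =>
    show HahnSeries.C ((p : ℂ) ^ (k - 1)) * vq (p * p) y ≠ 0
    refine mul_ne_zero (hahnC_ne_zero (zpow_ne_zero _ hpc)) ?_
    intro h
    exact hy (vq_injective (p * p) (mul_ne_zero hp hp) (by rw [h, map_zero]))
  | coe j =>
    show HahnSeries.C ((p : ℂ)⁻¹) * qScale (zetaU p ^ j.val) y ≠ 0
    refine mul_ne_zero (hahnC_ne_zero (inv_ne_zero hpc)) ?_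
    intro h
    exact hy (qScale_injective _ (by rw [h, map_zero]))

/-! ### The expansion homomorphism -/

/-- Period-`p` `q`-expansion, as a ring homomorphism from nice functions to Laurent series. -/
def psi : niceAlg p →+* LaurentSeries ℂ := ofPS.comp (qExpHom p).toRingHom

theorem psi_mk {F : ℍ → ℂ} (hF : IsNice p F) :
    psi p (⟨F, hF⟩ : niceAlg p) = ofPS (qExpansion p F) := rfl

theorem psi_algebraMap (a : ℂ) : psi p (algebraMap ℂ (niceAlg p) a) = HahnSeries.C a := by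
  show ofPS (qExpHom p (algebraMap ℂ (niceAlg p) a)) = HahnSeries.C a
  rw [AlgHom.commutes]
  exact HahnSeries.ofPowerSeries_C a

/-- `Δ` in period-`p` expansion is nonzero. -/
theorem ofPS_discriminant_ne_zero : ofPS (qExpansion 1 (Δ : ℍ → ℂ)) ≠ 0 := by
  intro h
  have h1 := ofPS_E4_cube
  rw [h, mul_zero] at h1
  have h2 : (qExpansion 1 (E₄ : ℍ → ℂ)) ^ 3 = 0 := ofPS_injective (by rw [h1, map_zero])
  have h3 : qExpansion 1 (E₄ : ℍ → ℂ) = 0 := pow_eq_zero_iff (by norm_num) |>.mp h2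
  have h4 := congrArg (PowerSeries.coeff 0) h3
  rw [Fermat.Agent.S24.H76.qExpansion_E4, PowerSeries.coeff_map,
    PowerSeries.coeff_zero_eq_constantCoeff, constantCoeff_eisenstein4] at h4
  simp at h4

/-- **Key step**: the pointwise identity for a fixed value `c` of `X` gives the identity of
Laurent series. -/
theorem eval₂_jS_eq_of_pointwise (P : ℂ[X]) (c : ℂ)
    (h : ∀ τ : ℍ, P.eval (J τ) = ∏ x : OnePoint (ZMod p), (c - J (heckeRep p x • τ))) :
    P.eval₂ (HahnSeries.C : ℂ →+* LaurentSeries ℂ) (jS ℂ 1 p) =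
      ∏ x : OnePoint (ZMod p), (HahnSeries.C c - jx p x) := by
  have hp : p ≠ 0 := (Fact.out : p.Prime).ne_zero
  set n : ℕ := P.natDegree with hn
  -- the elements of `niceAlg p`
  set δ : niceAlg p := ⟨(Δ : ℍ → ℂ), isNice_of_isNice_one isNice_discriminant p⟩ with hδ
  set ε : niceAlg p := ⟨(E₄ : ℍ → ℂ) ^ 3, isNice_of_isNice_one isNice_E4_cube p⟩ with hε
  set δx : OnePoint (ZMod p) → niceAlg p := fun x =>
    ⟨tr p 12 (Δ : ℍ → ℂ) x, isNice_tr p isNice_discriminant 12 x⟩ with hδx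
  set εx : OnePoint (ZMod p) → niceAlg p := fun x =>
    ⟨tr p 12 ((E₄ : ℍ → ℂ) ^ 3) x, isNice_tr p isNice_E4_cube 12 x⟩ with hεx
  -- the identity of nice functions
  have key : (∏ x : OnePoint (ZMod p), δx x) *
      ∑ i ∈ Finset.range (n + 1), algebraMap ℂ (niceAlg p) (P.coeff i) * (ε ^ i * δ ^ (n - i)) =
      δ ^ n * ∏ x : OnePoint (ZMod p), (algebraMap ℂ (niceAlg p) c * δx x - εx x) := by
    apply Subtype.ext
    funext τ
    simp only [MulMemClass.coe_mul, SubmonoidClass.coe_finsetProd, AddSubmonoidClass.coe_finsetSum,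
      SubmonoidClass.coe_pow, AddSubgroupClass.coe_sub, Subalgebra.coe_algebraMap,
      Pi.mul_apply, Finset.prod_apply, Finset.sum_apply, Pi.pow_apply, Pi.sub_apply, hδ, hε,
      hδx, hεx, Pi.algebraMap_apply, Algebra.algebraMap_self, RingHom.id_apply]
    have hΔ : Δ τ ≠ 0 := discriminant_ne_zero τ
    have h1 : ∑ i ∈ Finset.range (n + 1), P.coeff i * ((E₄ τ ^ 3) ^ i * Δ τ ^ (n - i)) =
        Δ τ ^ n * P.eval (J τ) := by
      rw [eval_eq_sum_range, Finset.mul_sum]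
      refine Finset.sum_congr rfl fun i hi => ?_
      have hi' : i ≤ n := Nat.lt_succ_iff.mp (Finset.mem_range.mp hi)
      rw [E₄_cube_eq, mul_pow, ← Nat.sub_add_cancel hi', pow_add, Nat.add_sub_cancel]
      ring
    have h2 : ∏ x : OnePoint (ZMod p),
        (c * tr p 12 (Δ : ℍ → ℂ) x τ - tr p 12 ((E₄ : ℍ → ℂ) ^ 3) x τ) =
        (∏ x : OnePoint (ZMod p), tr p 12 (Δ : ℍ → ℂ) x τ) * P.eval (J τ) := by
      rw [h τ, ← Finset.prod_mul_distrib]
      refine Finset.prod_congr rfl fun x _ => ?_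
      rw [tr_E₄_cube]
      ring
    rw [h1, h2]
    ring
  -- apply the expansion homomorphism
  have key2 := congrArg (psi p) key
  simp only [map_mul, map_prod, map_sum, map_pow, map_sub, psi_algebraMap] at key2
  set LΔ : LaurentSeries ℂ := ofPS (qExpansion 1 (Δ : ℍ → ℂ)) with hLΔ
  have hLE : ofPS (qExpansion 1 ((E₄ : ℍ → ℂ) ^ 3)) = jqModC ℂ * LΔ := by
    rw [qExpansion_E4_cube]
    exact ofPS_E4_cube
  have hΛ : psi p δ = vq p LΔ := by
    rw [hδ, psi_mk]
    have := ofPS_eq_smul_vq (f := qExpansion 1 (Δ : ℍ → ℂ)) (g := qExpansion p (Δ : ℍ → ℂ)) hp 1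
      (fun j => coeff_qExpansion_of_isNice_one p isNice_discriminant j)
    rw [this, one_smul]
  have hΕ : psi p ε = jS ℂ 1 p * psi p δ := by
    rw [hΛ, hε, psi_mk]
    have := ofPS_eq_smul_vq (f := qExpansion 1 ((E₄ : ℍ → ℂ) ^ 3))
      (g := qExpansion p ((E₄ : ℍ → ℂ) ^ 3)) hp 1
      (fun j => coeff_qExpansion_of_isNice_one p isNice_E4_cube j)
    rw [this, one_smul, hLE, map_mul, jS, qSub_apply, qScale_one]
  have hΛx : ∀ x, psi p (δx x) = trL p 12 x LΔ := fun x => by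
    rw [hδx]
    show ofPS (qExpansion p (tr p 12 (Δ : ℍ → ℂ) x)) = _
    rw [ofPS_qExpansion_tr p isNice_discriminant]
  have hΕx : ∀ x, psi p (εx x) = jx p x * psi p (δx x) := fun x => by
    rw [hΛx, hεx]
    show ofPS (qExpansion p (tr p 12 ((E₄ : ℍ → ℂ) ^ 3) x)) = _
    rw [ofPS_qExpansion_tr p isNice_E4_cube, hLE, trL_jq_mul]
  have hΛ0 : psi p δ ≠ 0 := by
    rw [hΛ]
    intro h0
    exact ofPS_discriminant_ne_zero (vq_injective p hp (by rw [h0, map_zero]))
  have hΛx0 : ∀ x, psi p (δx x) ≠ 0 := fun x => by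
    rw [hΛx]
    exact trL_ne_zero p 12 x ofPS_discriminant_ne_zero
  -- simplify both sides
  have hL : ∑ i ∈ Finset.range (n + 1),
      HahnSeries.C (P.coeff i) * (psi p ε ^ i * psi p δ ^ (n - i)) =
      psi p δ ^ n * P.eval₂ (HahnSeries.C : ℂ →+* LaurentSeries ℂ) (jS ℂ 1 p) := by
    rw [eval₂_eq_sum_range, Finset.mul_sum]
    refine Finset.sum_congr rfl fun i hi => ?_
    have hi' : i ≤ n := Nat.lt_succ_iff.mp (Finset.mem_range.mp hi)
    rw [hΕ, mul_pow, ← Nat.sub_add_cancel hi', pow_add, Nat.add_sub_cancel]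
    ring
  have hR : ∏ x : OnePoint (ZMod p), (HahnSeries.C c * psi p (δx x) - psi p (εx x)) =
      (∏ x : OnePoint (ZMod p), psi p (δx x)) *
        ∏ x : OnePoint (ZMod p), (HahnSeries.C c - jx p x) := by
    rw [← Finset.prod_mul_distrib]
    refine Finset.prod_congr rfl fun x _ => ?_
    rw [hΕx]
    ring
  rw [hL, hR] at key2
  have hne : (∏ x : OnePoint (ZMod p), psi p (δx x)) * psi p δ ^ n ≠ 0 :=
    mul_ne_zero (Finset.prod_ne_zero_iff.mpr fun x _ => hΛx0 x) (pow_ne_zero _ hΛ0)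
  refine mul_left_cancel₀ hne ?_
  rw [mul_assoc, key2]
  ring

/-- Reindexing the product over the Hecke representatives. -/
theorem prod_jx {M : Type*} [CommMonoid M] (f : LaurentSeries ℂ → M) :
    ∏ x : OnePoint (ZMod p), f (jx p x) =
      f (jS ℂ 1 (p * p)) * ∏ b ∈ Finset.range p, f (jS ℂ (zetaU p ^ b) 1) := by
  have h1 : ∏ x : OnePoint (ZMod p), f (jx p x) =
      f (jx p (none : Option (ZMod p))) * ∏ j : ZMod p, f (jx p (some j)) :=
    Fintype.prod_option (fun x : Option (ZMod p) => f (jx p x))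
  rw [h1]
  congr 1
  show ∏ j : ZMod p, f (jS ℂ (zetaU p ^ j.val) 1) = _
  refine Finset.prod_nbij' (fun j : ZMod p => j.val) (fun b : ℕ => (b : ZMod p)) ?_ ?_ ?_ ?_ ?_
  · intro j _
    exact Finset.mem_range.mpr (ZMod.val_lt j)
  · intro b _
    exact Finset.mem_univ _
  · intro j _
    exact ZMod.natCast_zmod_val j
  · intro b hb
    exact ZMod.val_natCast_of_lt (Finset.mem_range.mp hb)
  · intro j _
    rfl

/-- **Bridge.** helper23's analytic modular equation implies the factorisation of the modular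
polynomial in `ℂ((q))[X]`. -/
theorem modPolyC_of_analytic (Φ : Polynomial (Polynomial ℂ))
    (h : ∀ τ : ℍ, Φ.map (evalRingHom (J τ)) =
      ∏ x : OnePoint (ZMod p), (X - C (J (heckeRep p x • τ)))) :
    Φ.map (eval₂RingHom (HahnSeries.C : ℂ →+* LaurentSeries ℂ) (jS ℂ 1 p)) =
      (X - C (jS ℂ 1 (p * p))) * ∏ b ∈ Finset.range p, (X - C (jS ℂ (zetaU p ^ b) 1)) := by
  rw [← prod_jx p (fun y => (X - C y : Polynomial (LaurentSeries ℂ)))]
  refine Polynomial.eq_of_infinite_eval_eq _ _ ?_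
  refine Set.Infinite.mono (s := Set.range (HahnSeries.C : ℂ → LaurentSeries ℂ)) ?_
    (Set.infinite_range_of_injective HahnSeries.C_injective)
  rintro _ ⟨c, rfl⟩
  show Polynomial.eval (HahnSeries.C c) _ = Polynomial.eval (HahnSeries.C c) _
  have hpt : ∀ τ : ℍ, (Φ.eval (C c)).eval (J τ) =
      ∏ x : OnePoint (ZMod p), (c - J (heckeRep p x • τ)) := by
    intro τ
    have h1 := congrArg (Polynomial.eval c) (h τ)
    rw [eval_map, eval_prod] at h1
    simp only [eval_sub, eval_X, eval_C] at h1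
    rw [← h1]
    have h2 := Polynomial.eval₂_at_apply (p := Φ) (evalRingHom (J τ)) (C c)
    simp only [coe_evalRingHom, eval_C] at h2
    exact h2.symm
  have h3 := eval₂_jS_eq_of_pointwise p (Φ.eval (C c)) c hpt
  rw [eval_map, eval_prod]
  simp only [eval_sub, eval_X, eval_C]
  rw [← h3]
  have h4 := Polynomial.eval₂_at_apply (p := Φ)
    (eval₂RingHom (HahnSeries.C : ℂ →+* LaurentSeries ℂ) (jS ℂ 1 p)) (C c)
  simp only [coe_eval₂RingHom, eval₂_C] at h4
  exact h4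

end Fermat.Agent.S28.H22

namespace Fermat.Agent.S28.H22

open Fermat.Agent.S22 Fermat.Agent.S28 Fermat.Agent.S28.H23 ModularCurve

/-- **M1a** (skeleton statement): the modular polynomial over `ℂ` with its factorisation in
`ℂ((q))[X]`. -/
theorem exists_modPolyC (p : ℕ) (hp : p.Prime) :
    ∃ (ζ : ℂˣ) (Φc : Polynomial (Polynomial ℂ)), IsPrimitiveRoot ζ p ∧ Φc.Monic ∧
      Φc.natDegree = p + 1 ∧
      Φc.map (eval₂RingHom (HahnSeries.C : ℂ →+* LaurentSeries ℂ) (jS ℂ 1 p)) =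
        (X - C (jS ℂ 1 (p * p))) * ∏ b ∈ Finset.range p, (X - C (jS ℂ (ζ ^ b) 1)) := by
  have : Fact p.Prime := ⟨hp⟩
  obtain ⟨Φ, hm, hd, hΦ⟩ := exists_modularPolynomial_analytic p
  exact ⟨zetaU p, Φ, isPrimitiveRoot_zetaU p hp.ne_zero, hm, hd, modPolyC_of_analytic p Φ hΦ⟩

end Fermat.Agent.S28.H22
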