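import Mathlib
import Fermat.Agent.S28.H22.Bridge
import Fermat.Agent.S28.H26.Transfer

/-!
# S28, package M1: modular polynomials exist for every prime level

Glue of the three parts of M1:
* helper23's analytic modular equation (`H23.exists_modularPolynomial_analytic`),
* the bridge to `ℂ((q))[X]` (`H22.exists_modPolyC`),
* helper26's integrality and transfer (`H26.exists_int_of_fact`, `H26.isModPoly_of_complex`).
-/

set_option autoImplicit false

namespace Fermat.Agent.S28.H22

open Fermat.Agent.S28

/-- **M1**: modular polynomials exist for every prime level. -/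
theorem hasModPolys : HasModPolys := by
  intro p hp
  have : NeZero p := ⟨hp.ne_zero⟩
  obtain ⟨ζ, Φc, hζ, hm, hd, hfact⟩ := exists_modPolyC p hp
  obtain ⟨Φ, hΦm, hΦd, -, hΦ⟩ :=
    Fermat.Agent.S28.H26.exists_int_of_fact p ζ hζ.pow_eq_one Φc hm hfact
  exact ⟨Φ, Fermat.Agent.S28.H26.isModPoly_of_complex p hp ζ hζ Φ hΦm (hΦd.trans hd) hΦ⟩

end Fermat.Agent.S28.H22
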